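import Mathlib
import Fermat.Prelude.Def_ModularCurve_GenusNumerics

/-!
# Genus numerics at levels `M = 4N`, `9N` (helper90; piece (6e) of the chain B → A)

For `4 ∣ M` or `3 ∣ M` there are no elliptic points of order two (`nuTwo M = 0`), for `2 ∣ M` or
`9 ∣ M` none of order three (`nuThree M = 0`).  Hence for `M = 4 N` and `M = 9 N`
`genusFormula M = 1 + ψ(M) / 12 - C(M) / 2`.
-/

set_option autoImplicit false

namespace Fermat.Agent.F3Genus

open ModularCurve

/-- A polynomial equation without solutions modulo `d` has no solutions modulo a multiple of `d`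
(for the equation `x ^ 2 + 1 = 0`). -/
theorem nuTwo_eq_zero_of_dvd {d M : ℕ} (hdM : d ∣ M)
    (hd : ∀ x : ZMod d, x ^ 2 + 1 ≠ 0) : nuTwo M = 0 := by
  unfold nuTwo
  have : IsEmpty {x : ZMod M // x ^ 2 + 1 = 0} := by
    refine ⟨fun ⟨x, hx⟩ => hd (ZMod.castHom hdM (ZMod d) x) ?_⟩
    have := congrArg (ZMod.castHom hdM (ZMod d)) hx
    rwa [map_add, map_pow, map_one, map_zero] at this
  exact Nat.card_of_isEmpty

theorem nuThree_eq_zero_of_dvd {d M : ℕ} (hdM : d ∣ M)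
    (hd : ∀ x : ZMod d, x ^ 2 + x + 1 ≠ 0) : nuThree M = 0 := by
  unfold nuThree
  have : IsEmpty {x : ZMod M // x ^ 2 + x + 1 = 0} := by
    refine ⟨fun ⟨x, hx⟩ => hd (ZMod.castHom hdM (ZMod d) x) ?_⟩
    have := congrArg (ZMod.castHom hdM (ZMod d)) hx
    rwa [map_add, map_add, map_pow, map_one, map_zero] at this
  exact Nat.card_of_isEmpty

theorem nuTwo_eq_zero_of_four_dvd {M : ℕ} (h : 4 ∣ M) : nuTwo M = 0 :=
  nuTwo_eq_zero_of_dvd h (by decide)

theorem nuTwo_eq_zero_of_three_dvd {M : ℕ} (h : 3 ∣ M) : nuTwo M = 0 :=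
  nuTwo_eq_zero_of_dvd h (by decide)

theorem nuThree_eq_zero_of_two_dvd {M : ℕ} (h : 2 ∣ M) : nuThree M = 0 :=
  nuThree_eq_zero_of_dvd h (by decide)

theorem nuThree_eq_zero_of_nine_dvd {M : ℕ} (h : 9 ∣ M) : nuThree M = 0 :=
  nuThree_eq_zero_of_dvd h (by decide)

/-- The genus formula at a level divisible by `4`. -/
theorem genusFormula_of_four_dvd {M : ℕ} (h : 4 ∣ M) :
    genusFormula M = 1 + (dedekindPsi M : ℚ) / 12 - (cuspCount M : ℚ) / 2 := by
  unfold genusFormula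
  rw [nuTwo_eq_zero_of_four_dvd h, nuThree_eq_zero_of_two_dvd (Dvd.dvd.trans ⟨2, rfl⟩ h)]
  simp

/-- The genus formula at a level divisible by `9`. -/
theorem genusFormula_of_nine_dvd {M : ℕ} (h : 9 ∣ M) :
    genusFormula M = 1 + (dedekindPsi M : ℚ) / 12 - (cuspCount M : ℚ) / 2 := by
  unfold genusFormula
  rw [nuTwo_eq_zero_of_three_dvd (Dvd.dvd.trans ⟨3, rfl⟩ h), nuThree_eq_zero_of_nine_dvd h]
  simp

/-- The genus formula at `M = 4 N`. -/
theorem genusFormula_four_mul (N : ℕ) :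
    genusFormula (4 * N) = 1 + (dedekindPsi (4 * N) : ℚ) / 12 - (cuspCount (4 * N) : ℚ) / 2 :=
  genusFormula_of_four_dvd ⟨N, rfl⟩

/-- The genus formula at `M = 9 N`. -/
theorem genusFormula_nine_mul (N : ℕ) :
    genusFormula (9 * N) = 1 + (dedekindPsi (9 * N) : ℚ) / 12 - (cuspCount (9 * N) : ℚ) / 2 :=
  genusFormula_of_nine_dvd ⟨N, rfl⟩

end Fermat.Agent.F3Genus
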